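/-
Matching of twisted and ordinary orbital sets for a cyclic automorphism of order three,
in abstract group-theoretic form.
-/
import Mathlib.GroupTheory.Coset.Basic
import Mathlib.GroupTheory.GroupAction.Quotient
import Mathlib.Algebra.Group.End
import Mathlib.Tactic.Group

set_option autoImplicit false

namespace FermatAgent.LT.TF

variable {G : Type*} [Group G] (σ : MulAut G)

/-- The norm `δ · σ δ · σ² δ`. -/
def nm (δ : G) : G := δ * σ δ * σ (σ δ)

/-- Cosets `x U` with `x⁻¹ δ σ x ∈ U`. -/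
def twistedSet (U : Subgroup G) (δ : G) : Set (G ⧸ U) :=
  {q | ∃ x : G, (x : G ⧸ U) = q ∧ x⁻¹ * δ * σ x ∈ U}

/-- Cosets `y U` of `σ`-fixed `y` with `y⁻¹ γ y ∈ U`. -/
def plainSet (U : Subgroup G) (γ : G) : Set (G ⧸ U) :=
  {q | ∃ y : G, σ y = y ∧ (y : G ⧸ U) = q ∧ y⁻¹ * γ * y ∈ U}

theorem twisted_mem_iff {U : Subgroup G} (hU : ∀ u ∈ U, σ u ∈ U) {δ x x' : G}
    (h : (x : G ⧸ U) = x') (hx : x⁻¹ * δ * σ x ∈ U) : x'⁻¹ * δ * σ x' ∈ U := by
  have hu : x⁻¹ * x' ∈ U := QuotientGroup.eq.mp h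
  have : x'⁻¹ * δ * σ x' = (x⁻¹ * x')⁻¹ * (x⁻¹ * δ * σ x) * σ (x⁻¹ * x') := by
    rw [map_mul, map_inv]
    group
  rw [this]
  exact mul_mem (mul_mem (inv_mem hu) hx) (hU _ hu)

variable {σ}

theorem nm_conj (hσ : ∀ x, σ (σ (σ x)) = x) (v δ : G) :
    nm σ (v⁻¹ * δ * σ v) = v⁻¹ * nm σ δ * v := by
  simp only [nm, map_mul, map_inv, hσ]
  group

theorem nm_of_fixed {c : G} (hc : σ c = c) : nm σ c = c * c * c := by
  rw [nm, hc, hc]

theorem sigma_nm (hσ : ∀ x, σ (σ (σ x)) = x) (δ : G) : σ (nm σ δ) = δ⁻¹ * nm σ δ * δ := by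
  simp only [nm, map_mul, hσ]
  group

/-- The torus data: an abelian, `σ`-stable subgroup with vanishing `H¹`. -/
structure IsTorus (σ : MulAut G) (T : Subgroup G) : Prop where
  comm : ∀ a ∈ T, ∀ b ∈ T, a * b = b * a
  stable : ∀ a ∈ T, σ a ∈ T
  h90 : ∀ a ∈ T, nm σ a = 1 → ∃ z ∈ T, a = z * (σ z)⁻¹

theorem IsTorus.nm_mem {T : Subgroup G} (hT : IsTorus σ T) {a : G} (ha : a ∈ T) : nm σ a ∈ T :=
  mul_mem (mul_mem ha (hT.stable _ ha)) (hT.stable _ (hT.stable _ ha))

theorem IsTorus.nm_mul {T : Subgroup G} (hT : IsTorus σ T) {a b : G} (ha : a ∈ T) (hb : b ∈ T) :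
    nm σ (a * b) = nm σ a * nm σ b := by
  have h1 : σ a * (b * σ b) = b * σ b * σ a :=
    hT.comm _ (hT.stable _ ha) _ (mul_mem hb (hT.stable _ hb))
  have h2 : σ (σ a) * (b * σ b) = b * σ b * σ (σ a) :=
    hT.comm _ (hT.stable _ (hT.stable _ ha)) _ (mul_mem hb (hT.stable _ hb))
  have h3 : b * σ a = σ a * b := hT.comm _ hb _ (hT.stable _ ha)
  simp only [nm, map_mul]
  calc a * b * (σ a * σ b) * (σ (σ a) * σ (σ b))
      = a * (b * σ a) * σ b * σ (σ a) * σ (σ b) := by group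
    _ = a * σ a * (b * σ b * σ (σ a)) * σ (σ b) := by rw [h3]; group
    _ = _ := by rw [← h2]; group

/-! ### Pro-`p` level, `p ≠ 3` -/

section CubeRoot

variable {U : Subgroup G} (hσ : ∀ x, σ (σ (σ x)) = x) (hU : ∀ u ∈ U, σ u ∈ U)
  (hroot : ∀ u ∈ U, ∃ c ∈ U, c * c * c = u)
  (huniq : ∀ c ∈ U, ∀ d ∈ U, c * c * c = d * d * d → c = d)
  (hH1 : ∀ w ∈ U, nm σ w = 1 → ∃ v ∈ U, w = v * (σ v)⁻¹)

include hσ hU hroot huniq hH1

/-- Every element of `U` is `σ`-conjugate by `U` to a `σ`-fixed element. -/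
theorem exists_sigma_conj_fixed {u : G} (hu : u ∈ U) :
    ∃ v ∈ U, σ (v⁻¹ * u * σ v) = v⁻¹ * u * σ v := by
  have hN : nm σ u ∈ U := mul_mem (mul_mem hu (hU _ hu)) (hU _ (hU _ hu))
  obtain ⟨c, hc, hc3⟩ := hroot _ hN
  have hsc : σ c = u⁻¹ * c * u := by
    refine huniq _ (hU _ hc) _ (mul_mem (mul_mem (inv_mem hu) hc) hu) ?_
    rw [← map_mul, ← map_mul, hc3, sigma_nm hσ, ← hc3]
    group
  have hssc : σ (σ c) = (u * σ u)⁻¹ * c * (u * σ u) := by
    rw [hsc, map_mul, map_mul, map_inv, hsc]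
    group
  have hw : nm σ (c⁻¹ * u) = 1 := by
    have : nm σ (c⁻¹ * u) = c⁻¹ * c⁻¹ * c⁻¹ * nm σ u := by
      simp only [nm, map_mul, map_inv, hsc]
      group
    rw [this, ← hc3]
    group
  obtain ⟨v, hv, hvw⟩ := hH1 _ (mul_mem (inv_mem hc) hu) hw
  refine ⟨v, hv, ?_⟩
  have hsv : σ v = u⁻¹ * c * v := by
    have h1 : (σ v)⁻¹ = v⁻¹ * (c⁻¹ * u) := by rw [hvw]; group
    calc σ v = (σ v)⁻¹⁻¹ := (inv_inv _).symm
      _ = _ := by rw [h1]; group
  have hc' : v⁻¹ * u * σ v = v⁻¹ * c * v := by rw [hsv]; group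
  rw [hc', map_mul, map_mul, map_inv, hsc, hsv]
  group

/-- Twisted and ordinary fixed-point sets correspond equivariantly: a fixed coset is moved by an
element of the torus which only depends on its orbit under the fixed part of the torus. -/
theorem exists_bijOn_of_cubeRoot {T : Subgroup G} (hT : IsTorus σ T) {δ : G} (hδ : δ ∈ T)
    (hcent : ∀ x, x * x * x = nm σ δ → x ∈ T) :
    ∃ Z : G ⧸ U → G, (∀ q ∈ plainSet σ U (nm σ δ), Z q ∈ T) ∧
      Set.BijOn (fun q => Z q • q) (plainSet σ U (nm σ δ)) (twistedSet σ U δ) ∧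
      ∀ h ∈ T, σ h = h → ∀ q ∈ plainSet σ U (nm σ δ), Z (h • q) = Z q := by
  classical
  set γ := nm σ δ with hγ
  -- the cube root attached to a fixed coset
  let cub : G → G := fun y =>
    if h : y⁻¹ * γ * y ∈ U then y * (hroot _ h).choose * y⁻¹ else 1
  have cub_spec : ∀ y, σ y = y → y⁻¹ * γ * y ∈ U → cub y ∈ T ∧ σ (cub y) = cub y ∧
      cub y * cub y * cub y = γ ∧ y⁻¹ * cub y * y ∈ U := by
    intro y hy h
    obtain ⟨hcU, hc3⟩ := (hroot _ h).choose_spec
    set c := (hroot _ h).choose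
    have hcub : cub y = y * c * y⁻¹ := dif_pos h
    have h3 : cub y * cub y * cub y = γ := by
      have : cub y * cub y * cub y = y * (c * c * c) * y⁻¹ := by rw [hcub]; group
      rw [this, hc3]
      group
    refine ⟨hcent _ h3, ?_, h3, by rw [hcub]; simpa [mul_assoc] using hcU⟩
    have hγ' : σ γ = γ := by
      rw [hγ, sigma_nm hσ, hT.comm _ (inv_mem hδ) _ (hT.nm_mem hδ)]
      group
    have hsc : σ c = c := by
      refine huniq _ (hU _ hcU) _ hcU ?_
      rw [← map_mul, ← map_mul, hc3, map_mul, map_mul, map_inv, hy, hγ']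
    rw [hcub, map_mul, map_mul, map_inv, hsc, hy]
  have cub_unique : ∀ y t, σ y = y → y⁻¹ * γ * y ∈ U → y⁻¹ * t * y ∈ U → t * t * t = γ →
      cub y = t := by
    intro y t hy h ht h3
    obtain ⟨-, -, h3', hU'⟩ := cub_spec y hy h
    have key : y⁻¹ * cub y * y = y⁻¹ * t * y := by
      refine huniq _ hU' _ ht ?_
      calc y⁻¹ * cub y * y * (y⁻¹ * cub y * y) * (y⁻¹ * cub y * y)
          = y⁻¹ * (cub y * cub y * cub y) * y := by group
        _ = y⁻¹ * (t * t * t) * y := by rw [h3', h3]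
        _ = _ := by group
    simpa using key
  -- the twisting element attached to a cube root
  have hz : ∀ t, t ∈ T → σ t = t → t * t * t = γ → ∃ z ∈ T, δ = z * t * (σ z)⁻¹ := by
    intro t htT hts h3
    obtain ⟨z, hzT, hz⟩ := hT.h90 (δ * t⁻¹) (mul_mem hδ (inv_mem htT)) (by
      rw [hT.nm_mul hδ (inv_mem htT), nm_of_fixed (c := t⁻¹) (by rw [map_inv, hts]), ← hγ, ← h3]
      group)
    refine ⟨z, hzT, ?_⟩
    have h4 : δ = z * (σ z)⁻¹ * t := by
      calc δ = δ * t⁻¹ * t := by group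
        _ = _ := by rw [hz]
    rw [h4, mul_assoc, hT.comm _ (inv_mem (hT.stable _ hzT)) _ htT]
    group
  let zf : G → G := fun t => if h : ∃ z ∈ T, δ = z * t * (σ z)⁻¹ then h.choose else 1
  have zf_spec : ∀ t, t ∈ T → σ t = t → t * t * t = γ →
      zf t ∈ T ∧ δ = zf t * t * (σ (zf t))⁻¹ := by
    intro t a b c
    have h := hz t a b c
    rw [show zf t = h.choose from dif_pos h]
    exact h.choose_spec
  let pick : G ⧸ U → G := fun q =>
    if h : q ∈ plainSet σ U γ then h.choose else 1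
  have pick_spec : ∀ q ∈ plainSet σ U γ,
      σ (pick q) = pick q ∧ (pick q : G ⧸ U) = q ∧ (pick q)⁻¹ * γ * pick q ∈ U := by
    intro q hq
    rw [show pick q = hq.choose from dif_pos hq]
    exact hq.choose_spec
  -- independence of the representative
  have cub_coset : ∀ y y', σ y = y → σ y' = y' → (y : G ⧸ U) = y' → y⁻¹ * γ * y ∈ U →
      y'⁻¹ * γ * y' ∈ U ∧ cub y' = cub y := by
    intro y y' hy hy' he h
    obtain ⟨-, -, h3, hU'⟩ := cub_spec y hy h
    have hu : y⁻¹ * y' ∈ U := QuotientGroup.eq.mp he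
    have h' : y'⁻¹ * γ * y' ∈ U := by
      have : y'⁻¹ * γ * y' = (y⁻¹ * y')⁻¹ * (y⁻¹ * γ * y) * (y⁻¹ * y') := by group
      rw [this]
      exact mul_mem (mul_mem (inv_mem hu) h) hu
    refine ⟨h', cub_unique y' _ hy' h' ?_ h3⟩
    have : y'⁻¹ * cub y * y' = (y⁻¹ * y')⁻¹ * (y⁻¹ * cub y * y) * (y⁻¹ * y') := by group
    rw [this]
    exact mul_mem (mul_mem (inv_mem hu) hU') hu
  refine ⟨fun q => zf (cub (pick q)), fun q hq => ?_, ⟨?_, ?_, ?_⟩, ?_⟩
  · obtain ⟨hy, -, h⟩ := pick_spec q hq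
    obtain ⟨htT, hts, h3, -⟩ := cub_spec _ hy h
    exact (zf_spec _ htT hts h3).1
  · intro q hq
    obtain ⟨hy, heq, h⟩ := pick_spec q hq
    obtain ⟨htT, hts, h3, hU'⟩ := cub_spec _ hy h
    obtain ⟨hzT, hδz⟩ := zf_spec _ htT hts h3
    refine ⟨zf (cub (pick q)) * pick q, ?_, ?_⟩
    · exact congrArg (fun p : G ⧸ U => zf (cub (pick q)) • p) heq
    · set z := zf (cub (pick q))
      set t := cub (pick q)
      have : (z * pick q)⁻¹ * δ * σ (z * pick q) = (pick q)⁻¹ * t * pick q := by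
        rw [map_mul, hy, hδz]
        group
      rw [this]
      exact hU'
  · intro q hq q' hq' hqq
    obtain ⟨hy, heq, h⟩ := pick_spec q hq
    obtain ⟨hy', heq', h'⟩ := pick_spec q' hq'
    obtain ⟨htT, hts, h3, hU'⟩ := cub_spec _ hy h
    obtain ⟨htT', hts', h3', hU''⟩ := cub_spec _ hy' h'
    obtain ⟨hzT, hδz⟩ := zf_spec _ htT hts h3
    obtain ⟨hzT', hδz'⟩ := zf_spec _ htT' hts' h3'
    set y := pick q
    set y' := pick q'
    set z := zf (cub y)
    set z' := zf (cub y')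
    set t := cub y
    set t' := cub y'
    set u := (z * y)⁻¹ * (z' * y') with hu_def
    have hqq' : ((z * y : G) : G ⧸ U) = ((z' * y' : G) : G ⧸ U) := by
      exact ((congrArg (fun p : G ⧸ U => z • p) heq).trans hqq).trans
        (congrArg (fun p : G ⧸ U => z' • p) heq').symm
    have hu : u ∈ U := QuotientGroup.eq.mp hqq'
    -- both representatives are fixed-value representatives, so `u` is fixed
    have hrel : y'⁻¹ * t' * y' = u⁻¹ * (y⁻¹ * t * y) * σ u := by
      simp only [hu_def, map_mul, map_inv, hy, hy']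
      calc y'⁻¹ * t' * y' = y'⁻¹ * z'⁻¹ * δ * σ z' * y' := by rw [hδz']; group
        _ = _ := by rw [hδz]; group
    have hfix : σ (y'⁻¹ * t' * y') = y'⁻¹ * t' * y' := by simp [map_inv, hy', hts']
    have hfix' : σ (y⁻¹ * t * y) = y⁻¹ * t * y := by simp [map_inv, hy, hts]
    have hc : y'⁻¹ * t' * y' = u⁻¹ * (y⁻¹ * t * y) * u := by
      refine huniq _ hU'' _ (mul_mem (mul_mem (inv_mem hu) hU') hu) ?_
      rw [← nm_of_fixed hfix, hrel, nm_conj hσ, nm_of_fixed hfix']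
      group
    have hsu : σ u = u := by
      refine mul_left_cancel (a := u⁻¹ * (y⁻¹ * t * y)) ?_
      rw [← hrel, hc]
    have hh : σ (z⁻¹ * z') = z⁻¹ * z' := by
      have : z⁻¹ * z' = y * u * y'⁻¹ := by rw [hu_def]; group
      rw [this, map_mul, map_mul, map_inv, hy, hy', hsu]
    have htt : t' = t := by
      have h1 : z⁻¹ * z' * t' = t * (z⁻¹ * z') := by
        calc z⁻¹ * z' * t' = z⁻¹ * δ * σ z' := by rw [hδz']; group
          _ = t * σ (z⁻¹ * z') := by rw [hδz, map_mul, map_inv]; group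
          _ = _ := by rw [hh]
      rw [hT.comm _ htT _ (mul_mem (inv_mem hzT) hzT')] at h1
      exact mul_left_cancel h1
    have hzz : z' = z := congrArg zf htt
    rw [hzz] at hqq'
    have := congrArg (fun p => (z⁻¹ : G) • p) hqq'
    simp only [MulAction.Quotient.smul_coe, smul_eq_mul, inv_mul_cancel_left] at this
    rw [← heq, ← heq']
    exact this
  · rintro q ⟨x, rfl, hx⟩
    obtain ⟨v, hv, hfix⟩ := exists_sigma_conj_fixed hσ hU hroot huniq hH1 hx
    set x' := x * v with hx'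
    set c := v⁻¹ * (x⁻¹ * δ * σ x) * σ v with hc_def
    have hc : c = x'⁻¹ * δ * σ x' := by rw [hc_def, hx', map_mul]; group
    have hcU : c ∈ U := mul_mem (mul_mem (inv_mem hv) hx) (hU _ hv)
    set t := x' * c * x'⁻¹ with ht_def
    have hsx : σ x' = δ⁻¹ * x' * c := by rw [hc]; group
    have h3 : t * t * t = γ := by
      have h0 := nm_conj hσ x' δ
      rw [← hc, nm_of_fixed hfix, ← hγ] at h0
      calc t * t * t = x' * (c * c * c) * x'⁻¹ := by rw [ht_def]; group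
        _ = γ := by rw [h0]; group
    have htT : t ∈ T := hcent _ h3
    have hts : σ t = t := by
      have : σ t = δ⁻¹ * t * δ := by
        rw [ht_def, map_mul, map_mul, map_inv, hsx, hfix]
        group
      rw [this, hT.comm _ (inv_mem hδ) _ htT]
      group
    obtain ⟨hzT, hδz⟩ := zf_spec t htT hts h3
    set z := zf t
    set y := z⁻¹ * x' with hy_def
    have hty : y⁻¹ * t * y = c := by
      have : t * z = z * t := hT.comm _ htT _ hzT
      calc y⁻¹ * t * y = x'⁻¹ * (z * t) * z⁻¹ * x' := by rw [hy_def]; group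
        _ = x'⁻¹ * t * x' := by rw [← this]; group
        _ = c := by rw [ht_def]; group
    have hy : σ y = y := by
      rw [hy_def, map_mul, map_inv, hsx]
      calc (σ z)⁻¹ * (δ⁻¹ * x' * c) = (σ z)⁻¹ * (σ z * t⁻¹ * z⁻¹) * x' * c := by
            rw [hδz]; group
        _ = t⁻¹ * (z⁻¹ * x' * c) := by group
        _ = t⁻¹ * (y * (y⁻¹ * t * y)) := by rw [hty, hy_def]
        _ = z⁻¹ * x' := by rw [hy_def]; group
    have hyU : y⁻¹ * γ * y ∈ U := by
      have : y⁻¹ * γ * y = c * c * c := by rw [← hty, ← h3]; group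
      rw [this]
      exact mul_mem (mul_mem hcU hcU) hcU
    have hmem : (y : G ⧸ U) ∈ plainSet σ U γ := ⟨y, hy, rfl, hyU⟩
    refine ⟨y, hmem, ?_⟩
    obtain ⟨hp, hpe, hpU⟩ := pick_spec _ hmem
    have e1 : cub (pick (y : G ⧸ U)) = t :=
      (cub_coset _ _ hy hp hpe.symm hyU).2.trans
        (cub_unique y t hy hyU (by rw [hty]; exact hcU) h3)
    show zf (cub (pick (y : G ⧸ U))) • (y : G ⧸ U) = _
    rw [e1]
    show ((z * y : G) : G ⧸ U) = _
    rw [hy_def, mul_inv_cancel_left, hx', QuotientGroup.mk_mul_of_mem _ hv]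
  · intro h hh hhs q hq
    obtain ⟨hy, heq, hpU⟩ := pick_spec q hq
    obtain ⟨htT, hts, h3, hU'⟩ := cub_spec _ hy hpU
    have hsy : σ (h * pick q) = h * pick q := by rw [map_mul, hhs, hy]
    have hconj : ∀ w ∈ T, (h * pick q)⁻¹ * w * (h * pick q) = (pick q)⁻¹ * w * pick q := by
      intro w hw
      have : h * w = w * h := hT.comm _ hh _ hw
      calc (h * pick q)⁻¹ * w * (h * pick q) = (pick q)⁻¹ * h⁻¹ * (w * h) * pick q := by group
        _ = _ := by rw [← this]; group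
    have hhU : (h * pick q)⁻¹ * γ * (h * pick q) ∈ U := by
      rw [hconj _ (hT.nm_mem hδ)]
      exact hpU
    have hhe : ((h * pick q : G) : G ⧸ U) = h • q := congrArg (fun p : G ⧸ U => h • p) heq
    have hmem : h • q ∈ plainSet σ U γ := ⟨_, hsy, hhe, hhU⟩
    obtain ⟨hp, hpe, -⟩ := pick_spec _ hmem
    have e1 : cub (pick (h • q)) = cub (pick q) :=
      (cub_coset _ _ hsy hp (hhe.trans hpe.symm) hhU).2.trans
        (cub_unique _ _ hsy hhU (by rw [hconj _ htT]; exact hU') h3)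
    exact congrArg zf e1

end CubeRoot

end FermatAgent.LT.TF
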